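import Fermat.Agent.GR.D.Top.Chart
import Fermat.Agent.G1.D.Vert.Dual
import Fermat.Agent.G1.D.Vert.Fin
import Fermat.Agent.GR.D.GlueMain
import Fermat.Agent.G1.D.HorizJ

/-!
GR-D, top layer (1): `GoodChart` for `chart R {t}` from the vertical package, the glue and the
horizontal input.
-/

set_option autoImplicit false
set_option linter.unusedSectionVars false
set_option synthInstance.maxHeartbeats 400000

noncomputable section

namespace Fermat.Agent.G1.D.Top

open Fermat.Agent.G1 Fermat.Agent.GR Fermat.Agent.GR.D Fermat.Agent.GR.D.Top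

variable [Inputs]

open Fermat.Agent.GR ModularCurve IntermediateField Polynomial

variable {L : Type} [Field L] [CharZero L] {R : ValuationSubring L} [IsDiscreteValuationRing R]
  {N : ℕ}

theorem goodChart [NeZero N] (D : Vert.VData R L N) {t : FF1 L N} (ht : Vert.IsParam R N t)
    (T : R[X]) (hT : Squarefree (T.map (IsLocalRing.residue R)))
    (horiz : ∀ (P : Ideal (integralClosure (Algebra.adjoin L ({t} : Set (FF1 L N))) (FF1 L N)))
      [P.IsPrime], P ≠ ⊥ → algebraMap (Algebra.adjoin L ({t} : Set (FF1 L N)))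
        (integralClosure (Algebra.adjoin L ({t} : Set (FF1 L N))) (FF1 L N))
          ⟨aeval t T, glue_aeval_mem_adjoin t T⟩ ∉ P →
        Algebra.IsUnramifiedAt (Algebra.adjoin L ({t} : Set (FF1 L N))) P)
    (ϖ : R) (hϖ : Irreducible ϖ) :
    E.GoodChart ϖ (Vert.gaussO R N) (E.chart R ({t} : Set (FF1 L N))) := by
  have hfd : FiniteDimensional L⟮t⟯ (FF1 L N) := Vert.finiteDimensional ht
  exact
    { toSatChart := Vert.satChart D ht hϖ
      frac := Vert.frac D ht hϖ
      noeth := Vert.noeth ht
      dedekind := dedekind_chart hϖ t ht.transcendental T hT horiz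
        (Vert.vert_of_traceSelfDual D ht hϖ (Vert.traceSelfDual D ht))
        (Vert.isDomain_quot D ht hϖ) (Vert.noeth ht) }

end Fermat.Agent.G1.D.Top
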