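import Fermat.Agent.GR.D.Top.Horiz
import Fermat.Agent.GR.D.Horiz
import Fermat.Agent.G1.D.HorizJ
import Fermat.Agent.GR.D.GlueMain
import Fermat.Agent.GR.D.HorizDescent

/-!
GR-D, top layer (2): the horizontal input of `dedekind_chart` from `ord_v (t - a) ≤ 1` over `ℚ̄`.
-/

set_option autoImplicit false
set_option linter.unusedSectionVars false
set_option synthInstance.maxHeartbeats 400000

noncomputable section

namespace Fermat.Agent.G1.D.Top

open Fermat.Agent.G1 Fermat.Agent.GR Fermat.Agent.GR.D Fermat.Agent.GR.D.Top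

variable [Inputs]

open Fermat.Agent.GR ModularCurve AlgebraicCurve IntermediateField Polynomial
open scoped IntermediateField.algebraAdjoinAdjoin

/-- TOP-H. -/
theorem horiz_of_ord {L : Type} [Field L] [CharZero L] [Algebra L Qb] [Algebra.IsAlgebraic L Qb]
    (R : ValuationSubring L) (N : ℕ) [NeZero N] (t : FF1 L N) (hj : C.jF L N ∈ L⟮t⟯) (T0 : ℤ[X])
    (hord : ∀ (v : Place Qb (FF1 Qb N)) (a : Qb), aeval a T0 ≠ 0 →
      v.ord (C.bc N (algebraMap L Qb) t - algebraMap Qb (FF1 Qb N) a) ≤ 1) :
    ∀ (P : Ideal (integralClosure (Algebra.adjoin L ({t} : Set (FF1 L N))) (FF1 L N))) [P.IsPrime],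
      P ≠ ⊥ → algebraMap (Algebra.adjoin L ({t} : Set (FF1 L N)))
        (integralClosure (Algebra.adjoin L ({t} : Set (FF1 L N))) (FF1 L N))
          ⟨aeval t (T0.map (Int.castRingHom R)),
            glue_aeval_mem_adjoin t (T0.map (Int.castRingHom R))⟩ ∉ P →
        Algebra.IsUnramifiedAt (Algebra.adjoin L ({t} : Set (FF1 L N))) P := by
  intro P _ hP hT
  have ht : Transcendental L t := transcendental_of_mem_adjoin (transcendental_jF L N) hj
  have htb : Transcendental Qb (C.bc N (algebraMap L Qb) t) :=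
    transcendental_bc (algebraMap L Qb) N hj
  have hfd1 := finiteDimensional_FF_of_transcendental L N ht
  have hfd2 := finiteDimensional_FF_of_transcendental Qb N htb
  -- `T0 ≠ 0`
  have hT0 : T0 ≠ 0 := by
    rintro rfl
    apply hT
    have : (⟨aeval t ((0 : ℤ[X]).map (Int.castRingHom R)),
        glue_aeval_mem_adjoin t ((0 : ℤ[X]).map (Int.castRingHom R))⟩ :
        Algebra.adjoin L ({t} : Set (FF1 L N))) = 0 := by
      apply Subtype.ext
      simp
    rw [this, map_zero]
    exact P.zero_mem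
  refine isUnramifiedAt_of_places (C.bc N (algebraMap L Qb)) (C.bc_algebraMap N _) t ht htb
    ⟨aeval t (T0.map (Int.castRingHom R)), glue_aeval_mem_adjoin t _⟩ ?_ P hP hT
  intro v a hv
  set τ := C.bc N (algebraMap L Qb) t with hτ
  set g : Qb[X] := T0.map (Int.castRingHom Qb) with hg
  have key : C.bc N (algebraMap L Qb) (aeval t (T0.map (Int.castRingHom R))) = aeval τ g := by
    have h1 : aeval t (T0.map (Int.castRingHom R)) = aeval t T0 :=
      aeval_map_algebraMap (A := R) t T0
    have h2 : aeval τ g = aeval τ T0 := aeval_map_algebraMap (A := Qb) τ T0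
    rw [h1, h2]
    exact (aeval_algHom_apply (C.bc N (algebraMap L Qb)).toIntAlgHom t T0).symm
  change v.ord (C.bc N (algebraMap L Qb) (aeval t (T0.map (Int.castRingHom R)))) = 0 at hv
  rw [key] at hv
  by_cases h0 : aeval a T0 = 0
  · by_contra hcon
    have hpos : 0 < v.ord (τ - algebraMap Qb (FF1 Qb N) a) := by omega
    have hg0 : g ≠ 0 := by
      rw [hg, Ne, Polynomial.map_eq_zero_iff (RingHom.injective_int (Int.castRingHom Qb))]
      exact hT0
    have hroot : g.IsRoot a := by
      rw [IsRoot.def, hg, eval_map, ← h0]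
      rfl
    obtain ⟨Q, hQ⟩ := dvd_iff_isRoot.2 hroot
    have hval : aeval τ g = (τ - algebraMap Qb (FF1 Qb N) a) * aeval τ Q := by
      rw [hQ, map_mul, map_sub, aeval_X, aeval_C]
    have hne : aeval τ g ≠ 0 := fun h => hg0 (transcendental_iff.1 htb g h)
    have hne1 : τ - algebraMap Qb (FF1 Qb N) a ≠ 0 := fun h => hne (by rw [hval, h, zero_mul])
    have hne2 : aeval τ Q ≠ 0 := fun h => hne (by rw [hval, h, mul_zero])
    have hmem := mem_place_of_ord_sub_pos v hpos
    have hnn := Fermat.Agent.S24.Zeros.ord_nonneg_of_mem v (aeval_mem_place v hmem Q)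
    rw [hval, v.ord_mul hne1 hne2] at hv
    omega
  · exact hord v a h0

end Fermat.Agent.G1.D.Top
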