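import Fermat.Agent.GR.D.Top.SmallB
import Fermat.Agent.G1.D.Iface

/-!
G1-D, top layer: small lemmas (B).  (`squarefree_X_mul_X_add`, `squarefree_X_mul_C_mul_X_add_one`
are those of `GR.D.Top`.)
-/

set_option autoImplicit false
set_option synthInstance.maxHeartbeats 400000

noncomputable section

namespace Fermat.Agent.G1.D.Top

open Fermat.Agent.G1 Fermat.Agent.GR Fermat.Agent.GR.D Fermat.Agent.GR.D.Top

open ModularCurve AlgebraicCurve IntermediateField Polynomial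

variable [Inputs]

/-- TOP-M1: auxiliary level. -/
theorem exists_level (N : ℕ) [NeZero N] (r : ℕ) (hr : r.Prime) (ℓ : ℕ) (hℓN : ¬ ℓ ∣ N)
    (hℓp : ℓ.Prime) (hℓr : ℓ ≠ r) (hk : (r = 2 ∧ ℓ = 3) ∨ (r = 3 ∧ ℓ = 2)) :
    ∃ N' : ℕ, N' ≠ 0 ∧ N ∣ N' ∧ r ∣ N' ∧ ¬ ℓ ∣ N' ∧
      ∃ k : ℕ, (FF1 Qb N).relfinrank (FF1 Qb N') = ℓ ^ k := by
  by_cases h : r ∣ N
  · exact ⟨N, NeZero.ne N, dvd_rfl, h, hℓN, 0, by rw [relfinrank_self, pow_zero]⟩
  · refine ⟨N * r, mul_ne_zero (NeZero.ne N) hr.ne_zero, Dvd.intro r rfl, Dvd.intro_left N rfl,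
      ?_, Inputs.level N r ℓ hk h hℓN⟩
    intro hd
    rcases (Nat.Prime.dvd_mul hℓp).1 hd with h1 | h1
    · exact hℓN h1
    · exact hℓr ((Nat.prime_dvd_prime_iff_eq hℓp hr).1 h1)

end Fermat.Agent.G1.D.Top
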