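import Fermat.Agent.GR.D.Top.CaseH2
import Fermat.Agent.G1.D.Top.Generic
import Fermat.Agent.G1.D.Top.SmallB
import Fermat.Agent.G1.D.HauptRam

/-!
GR-D, top layer: the base function `h₂` (`2 ∣ N`).
-/

set_option autoImplicit false
set_option linter.unusedSectionVars false
set_option synthInstance.maxHeartbeats 400000

noncomputable section

namespace Fermat.Agent.G1.D.Top

open Fermat.Agent.G1 Fermat.Agent.GR Fermat.Agent.GR.D Fermat.Agent.GR.D.Top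

variable [Inputs]

open Fermat.Agent.GR Fermat.Agent.GR.E ModularCurve AlgebraicCurve IntermediateField Polynomial
open Fermat.Agent.Lib

theorem CaseH2_baseFn (K : Type) [Field K] : baseFn K Hauptmodul.h2 = Haupt.h2 K :=
  Haupt.h2R_eq K

theorem CaseH2_mem {N : ℕ} (h2 : 2 ∣ N) (K : Type) [Field K] :
    baseFn K Hauptmodul.h2 ∈ FF1 K N :=
  FF_le_FF1 K N (Haupt.h2R_mem_FF K h2)

theorem CaseH2_eq {N : ℕ} (h2 : 2 ∣ N) (K : Type) [Field K] :
    (⟨baseFn K Hauptmodul.h2, CaseH2_mem h2 K⟩ : FF1 K N) = Haupt.h2F K h2 :=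
  Subtype.ext (CaseH2_baseFn K)

theorem CaseH2_h2F_ne_zero {N : ℕ} (h2 : 2 ∣ N) (K : Type) [Field K] :
    Haupt.h2F K h2 (N := N) ≠ 0 := by
  intro h0
  have h1 : (baseFn K Hauptmodul.h2).coeff (-1) = 0 := by
    have : (baseFn K Hauptmodul.h2) = 0 := by
      rw [CaseH2_baseFn, ← Haupt.coe_h2F K h2, h0]; rfl
    rw [this]; rfl
  rw [baseFn_coeff, Hauptmodul.h2_coeff_neg_one, Int.cast_one] at h1
  exact one_ne_zero h1

theorem CaseH2_jF_mem {N : ℕ} (h2 : 2 ∣ N) (K : Type) [Field K] :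
    C.jF K N ∈ K⟮Haupt.h2F K h2 (N := N)⟯ := by
  have hne := CaseH2_h2F_ne_zero (N := N) h2 K
  have hj : C.jF K N = (Haupt.h2F K h2 + 256) ^ 3 / Haupt.h2F K h2 ^ 2 := by
    rw [eq_div_iff (pow_ne_zero 2 hne)]
    exact Haupt.jF_mul_h2F_sq K h2
  have hh : Haupt.h2F K h2 (N := N) ∈ K⟮Haupt.h2F K h2 (N := N)⟯ := mem_adjoin_simple_self K _
  rw [hj]
  refine div_mem (pow_mem (add_mem hh ?_) 3) (pow_mem hh 2)
  exact_mod_cast IntermediateField.natCast_mem _ 256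

theorem CaseH2_ne_zero (ℓ : ℕ) (hℓ : ℓ.Prime) (h2 : ℓ ≠ 2) (k : Type) [Field k] [CharP k ℓ] :
    (((64 : ℤ)) : k) ≠ 0 := by
  intro h
  rw [CharP.intCast_eq_zero_iff k ℓ] at h
  have h2' : ℓ ∣ 2 ^ 6 := by
    have : ℓ ∣ 64 := by exact_mod_cast h
    norm_num; exact this
  exact h2 ((Nat.prime_dvd_prime_iff_eq hℓ Nat.prime_two).mp (hℓ.dvd_of_dvd_pow h2'))

/-- TOP-C2. -/
theorem hasModel_h2 (N : ℕ) [NeZero N] (h2 : 2 ∣ N) (ℓ : ℕ) (hℓ : ℓ.Prime) (hℓN : ¬ ℓ ∣ N)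
    (A : ValuationSubring Qb) (hA : A.LiesOverPrime ℓ) : G1.E.HasModel A N Hauptmodul.h2 := by
  have hℓ2 : ℓ ≠ 2 := by
    rintro rfl
    exact hℓN h2
  refine hasModel_of N ℓ hℓ hℓN A hA Hauptmodul.h2 Hauptmodul.h2_coeff_neg_one
    (fun K _ _ => CaseH2_mem h2 K) ?_ (X * (X + C 64)) (X * (C 64 * X + 1)) ?_ ?_ ?_ ?_
  · intro K _ _
    rw [CaseH2_eq]
    exact CaseH2_jF_mem h2 K
  · intro k _ _
    exact squarefree_X_mul_X_add 64 k (CaseH2_ne_zero ℓ hℓ hℓ2 k)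
  · intro k _ _
    exact squarefree_X_mul_C_mul_X_add_one 64 k
  · intro v a ha
    rw [CaseH2_eq]
    refine Haupt.ord_h2F_sub_le_one N h2 v a ?_ ?_
    · rintro rfl
      exact ha (by simp)
    · rintro rfl
      refine ha ?_
      rw [map_mul, map_add, aeval_X, aeval_C]
      simp
  · intro v a ha
    rw [CaseH2_eq]
    refine Haupt.ord_h2F_inv_sub_le_one N h2 v a ?_ ?_
    · rintro rfl
      exact ha (by simp)
    · intro h
      refine ha ?_
      rw [map_mul, map_add, map_mul, aeval_X, aeval_C, map_one]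
      have : (algebraMap ℤ Qb) 64 * a + 1 = 0 := by
        rw [← h]; simp [add_comm]
      rw [this, mul_zero]

end Fermat.Agent.G1.D.Top
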