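import Fermat.Agent.GR.D.Top.CaseH3
import Fermat.Agent.G1.D.Top.Generic
import Fermat.Agent.G1.D.Top.SmallB
import Fermat.Agent.G1.D.HauptRam

/-!
GR-D, top layer: the base function `h₃` (`3 ∣ N`).
-/

set_option autoImplicit false
set_option linter.unusedSectionVars false
set_option synthInstance.maxHeartbeats 400000

noncomputable section

namespace Fermat.Agent.G1.D.Top

open Fermat.Agent.G1 Fermat.Agent.GR Fermat.Agent.GR.D Fermat.Agent.GR.D.Top

variable [Inputs]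

open Fermat.Agent.GR Fermat.Agent.GR.E ModularCurve AlgebraicCurve IntermediateField Polynomial
open Fermat.Agent.Lib

theorem caseH3_baseFn (K : Type*) [Field K] : baseFn K Hauptmodul.h3 = Haupt.h3 K :=
  Haupt.h3R_eq K

theorem caseH3_mem (K : Type*) [Field K] {N : ℕ} (h3 : 3 ∣ N) :
    baseFn K Hauptmodul.h3 ∈ FF1 K N := by
  rw [caseH3_baseFn]
  exact FF_le_FF1 K N (Haupt.h3_mem_FF K h3)

theorem caseH3_eq (K : Type*) [Field K] {N : ℕ} (h3 : 3 ∣ N) :
    (⟨baseFn K Hauptmodul.h3, caseH3_mem K h3⟩ : FF1 K N) = Haupt.h3F K h3 :=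
  Subtype.ext (caseH3_baseFn K)

theorem caseH3_h3F_ne_zero (K : Type*) [Field K] {N : ℕ} (h3 : 3 ∣ N) :
    Haupt.h3F K h3 (N := N) ≠ 0 := by
  intro h0
  have h1 : (Haupt.h3 K).coeff (-1) = 0 := by
    have : ((Haupt.h3F K h3 : FF1 K N) : LaurentSeries K) = 0 := by rw [h0]; rfl
    rw [Haupt.coe_h3F] at this
    rw [this]; rfl
  rw [Haupt.h3_coeff_neg_one] at h1
  exact one_ne_zero h1

theorem caseH3_j_mem (K : Type*) [Field K] {N : ℕ} (h3 : 3 ∣ N) :
    C.jF K N ∈ K⟮Haupt.h3F K h3 (N := N)⟯ := by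
  set h := Haupt.h3F K h3 (N := N) with hh
  have hne : h ≠ 0 := caseH3_h3F_ne_zero K h3
  have hmem : h ∈ K⟮h⟯ := mem_adjoin_simple_self K h
  have e : C.jF K N = (h + 27) * (h + 243) ^ 3 / h ^ 3 := by
    rw [eq_div_iff (pow_ne_zero 3 hne)]
    exact Haupt.jF_mul_h3F_cube K h3
  rw [e]
  have h27 : (27 : FF1 K N) ∈ K⟮h⟯ := by
    have : (27 : FF1 K N) = algebraMap K (FF1 K N) 27 := (map_ofNat (algebraMap K (FF1 K N)) 27).symm
    rw [this]; exact K⟮h⟯.algebraMap_mem _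
  have h243 : (243 : FF1 K N) ∈ K⟮h⟯ := by
    have : (243 : FF1 K N) = algebraMap K (FF1 K N) 243 := (map_ofNat (algebraMap K (FF1 K N)) 243).symm
    rw [this]; exact K⟮h⟯.algebraMap_mem _
  exact div_mem (mul_mem (add_mem hmem h27) (pow_mem (add_mem hmem h243) 3)) (pow_mem hmem 3)

/-- TOP-C3. -/
theorem hasModel_h3 (N : ℕ) [NeZero N] (h3 : 3 ∣ N) (ℓ : ℕ) (hℓ : ℓ.Prime) (hℓN : ¬ ℓ ∣ N)
    (A : ValuationSubring Qb) (hA : A.LiesOverPrime ℓ) : G1.E.HasModel A N Hauptmodul.h3 := by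
  have hℓ3 : ℓ ≠ 3 := fun h => hℓN (h ▸ h3)
  refine hasModel_of N ℓ hℓ hℓN A hA Hauptmodul.h3 Hauptmodul.h3_coeff_neg_one
    (fun K _ _ => caseH3_mem K h3) ?_ (X * (X + C 27)) (X * (C 27 * X + 1)) ?_ ?_ ?_ ?_
  · intro K _ _
    rw [caseH3_eq]
    exact caseH3_j_mem K h3
  · intro k _ _
    apply squarefree_X_mul_X_add
    intro h0
    have h1 : ((27 : ℕ) : k) = 0 := by exact_mod_cast h0
    rw [CharP.cast_eq_zero_iff k ℓ] at h1
    have h2 : ℓ ∣ 3 := hℓ.dvd_of_dvd_pow (show ℓ ∣ 3 ^ 3 by norm_num; exact h1)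
    exact hℓ3 ((Nat.prime_dvd_prime_iff_eq hℓ Nat.prime_three).1 h2)
  · intro k _ _
    exact squarefree_X_mul_C_mul_X_add_one 27 k
  · intro v a ha
    rw [caseH3_eq]
    have ha' : a * (a + 27) ≠ 0 := by
      have e : aeval a ((X : ℤ[X]) * (X + C 27)) = a * (a + 27) := by
        rw [map_mul, map_add, aeval_X, aeval_C]; simp
      rwa [e] at ha
    refine Haupt.ord_h3F_sub_le_one N h3 v a (left_ne_zero_of_mul ha') ?_
    intro h
    apply right_ne_zero_of_mul ha'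
    rw [h]; ring
  · intro v a ha
    rw [caseH3_eq]
    have ha' : a * (27 * a + 1) ≠ 0 := by
      have e : aeval a ((X : ℤ[X]) * (C 27 * X + 1)) = a * (27 * a + 1) := by
        rw [map_mul, map_add, map_mul, aeval_X, aeval_C, map_one]; simp
      rwa [e] at ha
    refine Haupt.ord_h3F_inv_sub_le_one N h3 v a (left_ne_zero_of_mul ha') ?_
    intro h
    apply right_ne_zero_of_mul ha'
    rw [← h]; ring

end Fermat.Agent.G1.D.Top
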