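import Fermat.Agent.GR.D.Top.Main
import Fermat.Agent.G1.D.Top.CaseJ
import Fermat.Agent.G1.D.Top.CaseH2
import Fermat.Agent.G1.D.Top.CaseH3

/-!
GR-D, top layer (5): `modelExists`.
-/

set_option autoImplicit false
set_option linter.unusedSectionVars false
set_option synthInstance.maxHeartbeats 400000

noncomputable section

namespace Fermat.Agent.G1.D.Top

open Fermat.Agent.G1 Fermat.Agent.GR Fermat.Agent.GR.D Fermat.Agent.GR.D.Top

variable [Inputs]

open Fermat.Agent.GR Fermat.Agent.GR.E ModularCurve AlgebraicCurve IntermediateField Polynomial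
open Fermat.Agent.Lib

/-- THE DELIVERABLE OF G1-D (under the four inputs). -/
theorem modelExists : G1.E.ModelExists := by
  intro N _ ℓ hℓ hℓN A hA
  by_cases h2 : ℓ = 2
  · subst h2
    obtain ⟨N', h0, hN, h3, hl, hk⟩ := exists_level N 3 Nat.prime_three 2 hℓN hℓ (by norm_num)
      (Or.inr ⟨rfl, rfl⟩)
    have : NeZero N' := ⟨h0⟩
    exact ⟨N', Hauptmodul.h3, h0, hN, hk, hasModel_h3 N' h3 2 hℓ hl A hA⟩
  by_cases h3 : ℓ = 3
  · subst h3
    obtain ⟨N', h0, hN, h2', hl, hk⟩ := exists_level N 2 Nat.prime_two 3 hℓN hℓ (by norm_num)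
      (Or.inl ⟨rfl, rfl⟩)
    have : NeZero N' := ⟨h0⟩
    exact ⟨N', Hauptmodul.h2, h0, hN, hk, hasModel_h2 N' h2' 3 hℓ hl A hA⟩
  · have h5 : 5 ≤ ℓ := by
      have := hℓ.two_le
      by_contra hlt
      have h4 : ℓ = 4 := by omega
      subst h4
      exact absurd hℓ (by norm_num)
    refine ⟨N, jqModC ℤ, NeZero.ne N, dvd_rfl, ⟨0, ?_⟩, hasModel_j N ℓ hℓ h5 hℓN A hA⟩
    rw [pow_zero, IntermediateField.relfinrank_self]

omit [Inputs] in
/-- explicit form. -/
theorem modelExists_of (hV : VertIn) (hF : FinIn) (hH : HorIn) (hL : LevelIn) :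
    G1.E.ModelExists :=
  @modelExists ⟨hV, hF, hH, hL⟩

end Fermat.Agent.G1.D.Top
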